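import Mathlib.Algebra.Module.PID
import Mathlib.Algebra.Polynomial.Module.AEval
import Mathlib.RingTheory.AdjoinRoot
import Mathlib.LinearAlgebra.DFinsupp

/-!
# Chains of a nilpotent endomorphism

A nilpotent endomorphism makes the space a finitely generated torsion module over `k[X]`, so a sum
of modules `k[X] / (X ^ e)`; the powers of `X` in each give a base of chains.
-/

set_option autoImplicit false

noncomputable section

namespace FA.Weitzenboeck

open Polynomial
open scoped DirectSum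

variable {k : Type*} [Field k]

/-- The powers of `X` in `k[X] / (X ^ e)`. -/
def blockBasis (e : ℕ) :
    Module.Basis (Fin e) k (k[X] ⧸ Submodule.span k[X] {(X : k[X]) ^ e}) :=
  ((AdjoinRoot.powerBasis' (monic_X_pow (R := k) e)).basis.reindex
    (finCongr (natDegree_X_pow (R := k) e)) : Module.Basis (Fin e) k (AdjoinRoot ((X : k[X]) ^ e)))

theorem blockBasis_apply (e : ℕ) (j : Fin e) :
    blockBasis (k := k) e j = Submodule.Quotient.mk ((X : k[X]) ^ (j : ℕ)) := by
  show ((AdjoinRoot.powerBasis' (monic_X_pow (R := k) e)).basis.reindex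
    (finCongr (natDegree_X_pow (R := k) e))) j = _
  rw [Module.Basis.reindex_apply, PowerBasis.basis_eq_pow, AdjoinRoot.powerBasis'_gen,
    ← AdjoinRoot.mk_X, ← map_pow]
  rfl

variable {V : Type*} [AddCommGroup V] [Module k V]

/-- **A base of chains.** -/
theorem exists_chain_basis [FiniteDimensional k V] (f : V →ₗ[k] V) (hf : IsNilpotent f) :
    ∃ (ι : Type) (_ : Fintype ι) (d : ι → ℕ)
      (b : Module.Basis ((a : ι) × Fin (d a + 1)) k V),
        (∀ v, (v.2 : ℕ) = 0 → f (b v) = 0) ∧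
          ∀ (a : ι) (i j : Fin (d a + 1)), (i : ℕ) = j + 1 → f (b ⟨a, i⟩) = b ⟨a, j⟩ := by
  classical
  obtain ⟨N, hN⟩ := hf
  have htors : Module.IsTorsion' (Module.AEval' f) (Submonoid.powers (X : k[X])) := by
    intro m
    refine ⟨⟨X ^ N, N, rfl⟩, ?_⟩
    show (X : k[X]) ^ N • m = 0
    refine (Module.AEval'.of f).symm.injective ?_
    rw [Module.AEval.of_symm_smul, map_pow, aeval_X, hN, map_zero, zero_smul]
  obtain ⟨r, e, ⟨Φ⟩⟩ := Module.torsion_by_prime_power_decomposition (irreducible_X (R := k)) htors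
  set T : V ≃ₗ[k] ⨁ i : Fin r, k[X] ⧸ Submodule.span k[X] {(X : k[X]) ^ e i} :=
    (Module.AEval'.of f).trans (Φ.restrictScalars k)
  have hT : ∀ v, T (f v) = (X : k[X]) • T v := fun v => by
    show Φ (Module.AEval'.of f (f v)) = (X : k[X]) • Φ (Module.AEval'.of f v)
    rw [← map_smul, Module.AEval'.X_smul_of]
  set B : Module.Basis ((i : Fin r) × Fin (e i)) k
      (⨁ i : Fin r, k[X] ⧸ Submodule.span k[X] {(X : k[X]) ^ e i}) :=
    DFinsupp.basis fun i => blockBasis (e i)
  have hB : ∀ (i : Fin r) (j : Fin (e i)), B ⟨i, j⟩ =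
      DirectSum.of (fun i : Fin r => k[X] ⧸ Submodule.span k[X] {(X : k[X]) ^ e i}) i
        (Submodule.Quotient.mk ((X : k[X]) ^ (j : ℕ))) := fun i j => by
    rw [← blockBasis_apply]
    refine B.repr.injective ?_
    rw [Module.Basis.repr_self]
    ext ⟨a, b⟩
    show _ = (blockBasis (e a)).repr (DirectSum.of (fun i : Fin r =>
      k[X] ⧸ Submodule.span k[X] {(X : k[X]) ^ e i}) i (blockBasis (e i) j) a) b
    rcases eq_or_ne i a with rfl | hia
    · rw [DirectSum.of_eq_same, Module.Basis.repr_self, Finsupp.single_apply, Finsupp.single_apply]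
      simp
    · rw [DirectSum.of_eq_of_ne _ _ _ hia.symm, map_zero, Finsupp.zero_apply, Finsupp.single_apply,
        if_neg fun h => hia (congrArg Sigma.fst h)]
  have hXB : ∀ (i : Fin r) (j : Fin (e i)), (X : k[X]) • B ⟨i, j⟩ =
      if h : (j : ℕ) + 1 < e i then B ⟨i, ⟨(j : ℕ) + 1, h⟩⟩ else 0 := fun i j => by
    rw [hB, ← DirectSum.of_smul, ← Submodule.Quotient.mk_smul, smul_eq_mul, ← pow_succ']
    split_ifs with h
    · rw [hB]
    · rw [(Submodule.Quotient.mk_eq_zero _).2
        (Submodule.mem_span_singleton.2 ⟨X ^ ((j : ℕ) + 1 - e i), by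
          rw [smul_eq_mul, ← pow_add]; congr 1; omega⟩), map_zero]
  set E : ((a : {i : Fin r // 0 < e i}) × Fin (e a.1 - 1 + 1)) ≃ ((i : Fin r) × Fin (e i)) :=
    { toFun := fun v => ⟨v.1.1, ⟨e v.1.1 - 1 - v.2, by have := v.1.2; omega⟩⟩
      invFun := fun v => ⟨⟨v.1, by have := v.2.2; omega⟩,
        ⟨e v.1 - 1 - v.2, by have := v.2.2; show _ < e v.1 - 1 + 1; omega⟩⟩
      left_inv := fun ⟨⟨i, hi⟩, j⟩ => by
        refine Sigma.ext rfl (heq_of_eq (Fin.ext ?_))
        show e i - 1 - (e i - 1 - (j : ℕ)) = j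
        have := j.2
        simp only at this
        omega
      right_inv := fun ⟨i, j⟩ => by
        refine Sigma.ext rfl (heq_of_eq (Fin.ext ?_))
        show e i - 1 - (e i - 1 - (j : ℕ)) = j
        have := j.2
        omega }
  set b := (B.map T.symm).reindex E.symm with hb
  have hfb : ∀ v, T (f (b v)) = (X : k[X]) • B (E v) := fun v => by
    rw [hT, hb, Module.Basis.reindex_apply, Equiv.symm_symm, Module.Basis.map_apply,
      LinearEquiv.apply_symm_apply]
  refine ⟨_, inferInstance, fun a : {i : Fin r // 0 < e i} => e a.1 - 1, b,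
    fun v hv => ?_, fun a i j hij => ?_⟩
  · refine T.injective ?_
    rw [hfb, map_zero]
    show (X : k[X]) • B ⟨v.1.1, _⟩ = 0
    rw [hXB, dif_neg ?_]
    have := v.1.2
    simp only
    omega
  · refine T.injective ?_
    rw [hfb]
    show (X : k[X]) • B ⟨a.1, _⟩ = _
    have hi : (i : ℕ) < e a.1 - 1 + 1 := i.2
    have hj : (j : ℕ) < e a.1 - 1 + 1 := j.2
    have := a.2
    rw [hXB, dif_pos (by simp only; omega), hb, Module.Basis.reindex_apply, Equiv.symm_symm,
      Module.Basis.map_apply, LinearEquiv.apply_symm_apply]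
    refine congrArg B (Sigma.ext rfl (heq_of_eq (Fin.ext ?_)))
    show e a.1 - 1 - (i : ℕ) + 1 = e a.1 - 1 - (j : ℕ)
    omega

end FA.Weitzenboeck
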