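import Fermat.Agent.ReflectionGroups.Basic
import Mathlib.Algebra.MvPolynomial.Derivation
import Mathlib.Algebra.Polynomial.Derivative
import Mathlib.Algebra.Polynomial.Roots
import Mathlib.RingTheory.Polynomial.Pochhammer
import Mathlib.RingTheory.Nilpotent.Basic
import Mathlib.Algebra.CharZero.Infinite
import Mathlib.Algebra.BigOperators.Field

/-!
# One-parameter groups of substitutions

If the polynomial matrix `Γ` has `Γ 0 = 1` and `Γ' = Γ N`, a polynomial is unchanged by all `Γ t`,
or by all `Γ m`, `m` natural, exactly if the linear derivation of `N` kills it. The powers of a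
unipotent matrix and the exponentials of a nilpotent one give such matrices.
-/

set_option autoImplicit false

noncomputable section

open MvPolynomial

namespace FA.Weitzenboeck

open Fermat.Agent.ReflectionGroups (act act_X act_mul act_one)

variable {n : ℕ} {k : Type*} [Field k]

/-- The linear derivation of a matrix. -/
def linDer (N : Matrix (Fin n) (Fin n) k) :
    Derivation k (MvPolynomial (Fin n) k) (MvPolynomial (Fin n) k) :=
  mkDerivation k fun j => ∑ i, C (N i j) * X i

/-- The polynomial family of substitutions. -/
def famFlow (Γ : Matrix (Fin n) (Fin n) (Polynomial k)) :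
    MvPolynomial (Fin n) k →ₐ[k] Polynomial (MvPolynomial (Fin n) k) :=
  aeval fun j => ∑ i, Polynomial.C (X i) * (Γ i j).map C

theorem eval_famFlow (Γ : Matrix (Fin n) (Fin n) (Polynomial k)) (t : k)
    (p : MvPolynomial (Fin n) k) :
    (famFlow Γ p).eval (C t) = act (Γ.map (Polynomial.eval t)) p := by
  induction p using MvPolynomial.induction_on with
  | C a => simp [famFlow, act]
  | add p q hp hq => simp only [map_add, Polynomial.eval_add, hp, hq]
  | mul_X p j hp =>
    rw [map_mul, map_mul, Polynomial.eval_mul, hp, act_X, famFlow, aeval_X,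
      Polynomial.eval_finsetSum]
    refine congrArg _ (Finset.sum_congr rfl fun i _ => ?_)
    rw [Polynomial.eval_mul, Polynomial.eval_C, Polynomial.eval_map, Polynomial.eval₂_at_apply,
      Matrix.map_apply, mul_comm]

variable {Γ : Matrix (Fin n) (Fin n) (Polynomial k)} {N : Matrix (Fin n) (Fin n) k}

theorem derivative_famFlow (hΓ : Γ.map Polynomial.derivative = Γ * N.map Polynomial.C)
    (p : MvPolynomial (Fin n) k) :
    Polynomial.derivative (famFlow Γ p) = famFlow Γ (linDer N p) := by
  induction p using MvPolynomial.induction_on with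
  | C a =>
    rw [derivation_C, map_zero, famFlow, aeval_C]
    exact Polynomial.derivative_C
  | add p q hp hq => simp only [map_add, hp, hq]
  | mul_X p j hp =>
    have hX : Polynomial.derivative (famFlow Γ (X j)) = famFlow Γ (linDer N (X j)) := by
      rw [linDer, mkDerivation_X, map_sum, famFlow, aeval_X, Polynomial.derivative_sum]
      simp only [map_mul, aeval_X, aeval_C, Polynomial.derivative_mul, Polynomial.derivative_C,
        zero_mul, zero_add, Polynomial.derivative_map, Finset.mul_sum]
      rw [Finset.sum_comm]
      refine Finset.sum_congr rfl fun i _ => ?_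
      have h := congrFun (congrFun hΓ i) j
      rw [Matrix.map_apply] at h
      rw [h, Matrix.mul_apply, Polynomial.map_sum, Finset.mul_sum]
      refine Finset.sum_congr rfl fun l _ => ?_
      rw [Matrix.map_apply, Polynomial.map_mul, Polynomial.map_C, Polynomial.algebraMap_apply,
        MvPolynomial.algebraMap_eq]
      ring
    rw [map_mul, Polynomial.derivative_mul, hp, hX, Derivation.leibniz, map_add, smul_eq_mul,
      smul_eq_mul, map_mul, map_mul]
    ring

theorem eval_famFlow_zero (h0 : Γ.map (Polynomial.eval (0 : k)) = 1)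
    (p : MvPolynomial (Fin n) k) : (famFlow Γ p).eval 0 = p := by
  rw [← C_0, eval_famFlow, h0, act_one]

variable [CharZero k] (h0 : Γ.map (Polynomial.eval (0 : k)) = 1)
  (hΓ : Γ.map Polynomial.derivative = Γ * N.map Polynomial.C)

include h0 hΓ in
/-- Invariance at the natural numbers makes the derivation vanish. -/
theorem linDer_eq_zero_of_nat {p : MvPolynomial (Fin n) k}
    (h : ∀ m : ℕ, act (Γ.map (Polynomial.eval (m : k))) p = p) : linDer N p = 0 := by
  have h1 : famFlow Γ p = Polynomial.C p := by
    refine sub_eq_zero.1 (Polynomial.eq_zero_of_infinite_isRoot _ ?_)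
    refine Set.infinite_of_injective_forall_mem (f := fun m : ℕ => C (m : k)) ?_ fun m => ?_
    · exact fun a b hab => Nat.cast_injective (C_injective (Fin n) k hab)
    · show Polynomial.IsRoot _ _
      rw [Polynomial.IsRoot.def, Polynomial.eval_sub, Polynomial.eval_C, eval_famFlow, h, sub_self]
  rw [← eval_famFlow_zero h0 (linDer N p), ← derivative_famFlow hΓ, h1, Polynomial.derivative_C,
    Polynomial.eval_zero]

include h0 hΓ in
/-- A polynomial killed by the derivation is unchanged by the family. -/
theorem act_eq_self_of_linDer {p : MvPolynomial (Fin n) k} (h : linDer N p = 0) (t : k) :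
    act (Γ.map (Polynomial.eval t)) p = p := by
  have h1 : Polynomial.derivative (famFlow Γ p) = 0 := by rw [derivative_famFlow hΓ, h, map_zero]
  have h2 := Polynomial.eq_C_of_derivative_eq_zero h1
  rw [← eval_famFlow, h2, Polynomial.eval_C]
  conv_rhs => rw [← eval_famFlow_zero h0 p, h2, Polynomial.eval_C]

omit h0 hΓ in
/-- The exponential family of a nilpotent matrix. -/
def expFamily (N : Matrix (Fin n) (Fin n) k) (L : ℕ) : Matrix (Fin n) (Fin n) (Polynomial k) :=
  Matrix.of fun i j => ∑ r ∈ Finset.range L, Polynomial.C ((N ^ r) i j / r.factorial) *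
    Polynomial.X ^ r

omit h0 hΓ [CharZero k] in
theorem expFamily_eval (N : Matrix (Fin n) (Fin n) k) (L : ℕ) (t : k) :
    (expFamily N L).map (Polynomial.eval t) =
      ∑ r ∈ Finset.range L, (t ^ r / r.factorial) • N ^ r := by
  ext1 i j
  rw [Matrix.map_apply, expFamily, Matrix.of_apply, Polynomial.eval_finsetSum, Matrix.sum_apply]
  refine Finset.sum_congr rfl fun r _ => ?_
  rw [Polynomial.eval_mul, Polynomial.eval_C, Polynomial.eval_pow, Polynomial.eval_X,
    Matrix.smul_apply, smul_eq_mul]
  ring

omit h0 hΓ in
theorem expFamily_spec (N : Matrix (Fin n) (Fin n) k) {L : ℕ} (hL : N ^ L = 0) :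
    (expFamily N (L + 1)).map (Polynomial.eval (0 : k)) = 1 ∧
      (expFamily N (L + 1)).map Polynomial.derivative =
        expFamily N (L + 1) * N.map Polynomial.C := by
  constructor
  · rw [expFamily_eval, Finset.sum_range_succ', Finset.sum_eq_zero fun r _ => by simp]
    simp
  · ext1 i j
    rw [Matrix.map_apply, Matrix.mul_apply]
    simp only [expFamily, Matrix.of_apply, Matrix.map_apply, Finset.sum_mul]
    rw [Finset.sum_comm, Polynomial.derivative_sum, Finset.sum_range_succ',
      Finset.sum_range_succ _ L]
    simp only [hL, Matrix.zero_apply, zero_div, map_zero, zero_mul, Finset.sum_const_zero, add_zero]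
    rw [pow_zero, pow_zero, mul_one, Polynomial.derivative_C, add_zero]
    refine Finset.sum_congr rfl fun r _ => ?_
    rw [Polynomial.derivative_C_mul_X_pow, Nat.add_sub_cancel, Finset.sum_congr rfl fun l _ =>
      show Polynomial.C ((N ^ r) i l / r.factorial) * Polynomial.X ^ r * Polynomial.C (N l j) =
        Polynomial.C ((N ^ r) i l * N l j / r.factorial) * Polynomial.X ^ r by
          rw [mul_right_comm, ← map_mul, div_mul_eq_mul_div], ← Finset.sum_mul, ← map_sum,
      ← Finset.sum_div, ← Matrix.mul_apply, ← pow_succ]
    congr 2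
    rw [Nat.factorial_succ, Nat.cast_mul]
    have h1 : ((r + 1 : ℕ) : k) ≠ 0 := Nat.cast_ne_zero.2 (Nat.succ_ne_zero r)
    field_simp

omit h0 hΓ in
/-- The powers of a unipotent matrix as a polynomial family. -/
def powFamily (M : Matrix (Fin n) (Fin n) k) (L : ℕ) : Matrix (Fin n) (Fin n) (Polynomial k) :=
  Matrix.of fun i j => ∑ r ∈ Finset.range L, Polynomial.C ((M ^ r) i j / r.factorial) *
    descPochhammer k r

omit h0 hΓ in
theorem powFamily_eval_nat (M : Matrix (Fin n) (Fin n) k) {L : ℕ} (hL : M ^ L = 0) (m : ℕ) :
    (powFamily M L).map (Polynomial.eval (m : k)) = (1 + M) ^ m := by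
  have h1 : (powFamily M L).map (Polynomial.eval (m : k)) =
      ∑ r ∈ Finset.range L, (m.choose r : k) • M ^ r := by
    ext1 i j
    rw [Matrix.map_apply, powFamily, Matrix.of_apply, Polynomial.eval_finsetSum, Matrix.sum_apply]
    refine Finset.sum_congr rfl fun r _ => ?_
    rw [Polynomial.eval_mul, Polynomial.eval_C, Matrix.smul_apply, smul_eq_mul,
      Nat.cast_choose_eq_descPochhammer_div]
    ring
  have h2 : ∀ s : Finset ℕ, Finset.range (m + 1) ⊆ s →
      (1 + M) ^ m = ∑ r ∈ s, (m.choose r : k) • M ^ r := fun s hs => by
    rw [add_comm, (Commute.one_right M).add_pow, ← Finset.sum_subset hs fun r _ hr => by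
      rw [Nat.choose_eq_zero_of_lt (by simpa using hr), Nat.cast_zero, zero_smul]]
    refine Finset.sum_congr rfl fun r _ => ?_
    rw [one_pow, mul_one, Nat.cast_smul_eq_nsmul, nsmul_eq_mul]
    exact (Nat.cast_commute _ _).eq.symm
  rw [h1, h2 (Finset.range (m + 1 + L)) (Finset.range_mono (Nat.le_add_right _ _)),
    Finset.sum_subset (Finset.range_mono (Nat.le_add_left L (m + 1))) fun r _ hr => by
      rw [pow_eq_zero_of_le (by simpa using hr) hL, smul_zero]]

/-- The logarithm of a unipotent matrix, as the velocity of its powers. -/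
def logMat (M : Matrix (Fin n) (Fin n) k) (L : ℕ) : Matrix (Fin n) (Fin n) k :=
  ((powFamily M L).map Polynomial.derivative).map (Polynomial.eval (0 : k))

omit h0 hΓ in
theorem powFamily_spec (M : Matrix (Fin n) (Fin n) k) {L : ℕ} (hL : M ^ L = 0) :
    (powFamily M L).map (Polynomial.eval (0 : k)) = 1 ∧
      (powFamily M L).map Polynomial.derivative = powFamily M L * (logMat M L).map Polynomial.C ∧
        IsNilpotent (logMat M L) := by
  have hz : (powFamily M L).map (Polynomial.eval (0 : k)) = 1 := by
    rw [← Nat.cast_zero, powFamily_eval_nat M hL, pow_zero]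
  refine ⟨hz, ?_, ?_⟩
  · ext1 i j
    refine Polynomial.eq_of_infinite_eval_eq _ _ ?_
    refine Set.infinite_of_injective_forall_mem (f := fun a : ℕ => (a : k)) Nat.cast_injective
      fun a => ?_
    show Polynomial.eval (a : k) _ = Polynomial.eval (a : k) _
    have hid : ∀ i j, (powFamily M L i j).comp (Polynomial.X + Polynomial.C (a : k)) =
        ∑ l, Polynomial.C (((1 + M) ^ a) i l) * powFamily M L l j := fun i j => by
      refine Polynomial.eq_of_infinite_eval_eq _ _ ?_
      refine Set.infinite_of_injective_forall_mem (f := fun b : ℕ => (b : k)) Nat.cast_injective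
        fun b => ?_
      show Polynomial.eval (b : k) _ = Polynomial.eval (b : k) _
      rw [Polynomial.eval_comp, Polynomial.eval_add, Polynomial.eval_X, Polynomial.eval_C,
        Polynomial.eval_finsetSum, ← Nat.cast_add]
      have e : ∀ (b : ℕ) (i j : Fin n),
          (powFamily M L i j).eval (b : k) = ((1 + M) ^ b) i j := fun b i j => by
        rw [← powFamily_eval_nat M hL, Matrix.map_apply]
      simp only [Polynomial.eval_mul, Polynomial.eval_C, e]
      rw [add_comm b a, pow_add, Matrix.mul_apply]
    have hd := congrArg (fun q => (Polynomial.derivative q).eval 0) (hid i j)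
    simp only [Polynomial.derivative_comp, Polynomial.derivative_add, Polynomial.derivative_X,
      Polynomial.derivative_C, add_zero, one_mul, Polynomial.eval_comp, Polynomial.eval_add,
      Polynomial.eval_X, Polynomial.eval_C, zero_add, Polynomial.derivative_sum,
      Polynomial.eval_finsetSum, Polynomial.derivative_mul, zero_mul, Polynomial.eval_mul] at hd
    rw [Matrix.map_apply, hd, Matrix.mul_apply, Polynomial.eval_finsetSum]
    refine Finset.sum_congr rfl fun l _ => ?_
    rw [Matrix.map_apply, Polynomial.eval_mul, Polynomial.eval_C, ← powFamily_eval_nat M hL,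
      Matrix.map_apply]
    rfl
  · have e : logMat M L = ∑ r ∈ Finset.range L,
        ((Polynomial.derivative (descPochhammer k r)).eval 0 / r.factorial) • M ^ r := by
      ext1 i j
      rw [logMat, Matrix.map_apply, Matrix.map_apply, powFamily, Matrix.of_apply,
        Polynomial.derivative_sum, Polynomial.eval_finsetSum, Matrix.sum_apply]
      refine Finset.sum_congr rfl fun r _ => ?_
      rw [Polynomial.derivative_C_mul, Polynomial.eval_mul, Polynomial.eval_C, Matrix.smul_apply,
        smul_eq_mul]
      ring
    rw [e]
    refine Commute.isNilpotent_sum (fun r _ => ?_) fun r s _ _ => ?_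
    · rcases Nat.eq_zero_or_pos r with rfl | hr
      · simp
      · exact IsNilpotent.smul (IsNilpotent.pow_of_pos ⟨L, hL⟩ hr.ne') _
    · exact ((Commute.pow_pow_self M r s).smul_left _).smul_right _

end FA.Weitzenboeck
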