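import Fermat.Agent.Weitzenboeck.Chains
import Fermat.Agent.Weitzenboeck.Flow
import Fermat.Agent.Gordan.Covariants
import Mathlib.LinearAlgebra.Basis.SMul
import Mathlib.LinearAlgebra.StdBasis
import Mathlib.RingTheory.Nilpotent.Lemmas
import Mathlib.RingTheory.Nilpotent.Exp
import Mathlib.Algebra.Algebra.Rat

/-!
# Weitzenböck's theorem

In a base of chains, each rescaled by falling factorials, a nilpotent linear derivation is the
operator of Cayley on a system of binary forms, so its kernel is the algebra of semi-invariants.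
-/

set_option autoImplicit false

noncomputable section

open MvPolynomial

namespace FA.Weitzenboeck

open FA.Gordan (Var sysLower semiAlg semiAlg_fg)
open FA.CayleySylvester (prevIdx coe_prevIdx lower_X)
open Fermat.Agent.ReflectionGroups (act act_mul act_one)

variable {n : ℕ} {k : Type*} [Field k]

/-- The constants of a linear derivation. -/
def linKer (N : Matrix (Fin n) (Fin n) k) : Subalgebra k (MvPolynomial (Fin n) k) where
  carrier := {p | linDer N p = 0}
  mul_mem' {p q} (hp : _ = _) (hq : _ = _) := by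
    rw [Set.mem_ofPred_eq, Derivation.leibniz, hp, hq, smul_zero, smul_zero, add_zero]
  add_mem' {p q} (hp : _ = _) (hq : _ = _) := by
    rw [Set.mem_ofPred_eq, map_add, hp, hq, add_zero]
  algebraMap_mem' r := Derivation.map_algebraMap _ r

theorem mem_linKer {N : Matrix (Fin n) (Fin n) k} {p : MvPolynomial (Fin n) k} :
    p ∈ linKer N ↔ linDer N p = 0 :=
  Iff.rfl

/-- The linear form with the given coefficients. -/
def linForm : (Fin n → k) →ₗ[k] MvPolynomial (Fin n) k :=
  Fintype.linearCombination k X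

theorem linForm_single (i : Fin n) : linForm (Pi.single i (1 : k)) = X i := by
  rw [linForm, Fintype.linearCombination_apply_single, one_smul]

theorem linDer_linForm (N : Matrix (Fin n) (Fin n) k) (a : Fin n → k) :
    linDer N (linForm a) = linForm (N.mulVec a) := by
  simp only [linForm, Fintype.linearCombination_apply, map_sum, Derivation.map_smul, linDer,
    mkDerivation_X, Finset.smul_sum, Matrix.mulVec, dotProduct, Finset.sum_smul]
  rw [Finset.sum_comm]
  exact Finset.sum_congr rfl fun i _ => Finset.sum_congr rfl fun j _ => by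
    rw [smul_eq_C_mul, smul_eq_C_mul, C_mul]
    ring

variable [CharZero k]

/-- **Weitzenböck's theorem.** -/
theorem linKer_fg {N : Matrix (Fin n) (Fin n) k} (hN : IsNilpotent N) : (linKer N).FG := by
  obtain ⟨ι, _, d, b, hb0, hb1⟩ := exists_chain_basis (Matrix.toLin' N)
    (Matrix.isNilpotent_toLin'_iff N |>.2 hN)
  have hs : ∀ v : Var d, IsUnit (((d v.1).descFactorial v.2 : ℕ) : k) := fun v =>
    (Nat.cast_ne_zero.2 fun h => (Nat.lt_succ_iff.1 v.2.2).not_gt
      (Nat.descFactorial_eq_zero_iff_lt.1 h)).isUnit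
  set b' := b.isUnitSMul hs
  have hb' : ∀ v, N.mulVec (b' v) = if (v.2 : ℕ) = 0 then 0 else
      ((d v.1 + 1 - v.2 : ℕ) : k) • b' ⟨v.1, prevIdx v.2⟩ := fun v => by
    rw [← Matrix.toLin'_apply, Module.Basis.isUnitSMul_apply, map_smul]
    rcases v with ⟨a, i⟩
    dsimp only
    split_ifs with h
    · rw [hb0 _ h, smul_zero]
    · rw [hb1 a i (prevIdx i) (by rw [coe_prevIdx]; omega), Module.Basis.isUnitSMul_apply,
        smul_smul, ← Nat.cast_mul]
      congr 2
      obtain ⟨j, hj⟩ : ∃ j, (i : ℕ) = j + 1 := ⟨i - 1, by omega⟩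
      simp only [coe_prevIdx, hj, Nat.add_sub_cancel, Nat.descFactorial_succ]
      congr 1
      have := i.2
      omega
  set χ₀ : (Fin n → k) →ₗ[k] MvPolynomial (Var d) k := b'.constr k X
  set ψ : MvPolynomial (Var d) k →ₐ[k] MvPolynomial (Fin n) k := aeval fun v => linForm (b' v)
  set χ : MvPolynomial (Fin n) k →ₐ[k] MvPolynomial (Var d) k :=
    aeval fun i => χ₀ (Pi.single i 1)
  have hψ : ∀ a, ψ (χ₀ a) = linForm a := fun a => by
    refine LinearMap.congr_fun (f := ψ.toLinearMap ∘ₗ χ₀) (g := linForm) (b'.ext fun v => ?_) a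
    rw [LinearMap.comp_apply, Module.Basis.constr_basis]
    exact aeval_X _ _
  have hχ : ∀ a, χ (linForm a) = χ₀ a := fun a => by
    refine LinearMap.congr_fun (f := χ.toLinearMap ∘ₗ linForm) (g := χ₀)
      ((Pi.basisFun k (Fin n)).ext fun i => ?_) a
    simp [χ, linForm_single]
  set Ψ : MvPolynomial (Var d) k ≃ₐ[k] MvPolynomial (Fin n) k := AlgEquiv.ofAlgHom ψ χ
    (algHom_ext fun i => by rw [AlgHom.comp_apply, AlgHom.id_apply, aeval_X, hψ, linForm_single])
    (algHom_ext fun v => by
      rw [AlgHom.comp_apply, AlgHom.id_apply, aeval_X, hχ, Module.Basis.constr_basis])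
  have hD : ∀ p, linDer N (Ψ p) = Ψ (sysLower k d p) := fun p => by
    show linDer N (ψ p) = ψ (sysLower k d p)
    induction p using MvPolynomial.induction_on with
    | C a => simp [ψ]
    | add p q hp hq => simp only [map_add, hp, hq]
    | mul_X p v hp =>
      have hX : linDer N (ψ (X v)) = ψ (sysLower k d (X v)) := by
        rw [sysLower, mkDerivation_X, lower_X, aeval_X, linDer_linForm, hb']
        split_ifs
        · rw [map_zero, map_zero, map_zero]
        · rw [map_mul, rename_C, rename_X, map_mul, aeval_C, aeval_X, map_smul,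
            Algebra.smul_def]
      rw [map_mul, Derivation.leibniz, Derivation.leibniz, hp, hX, smul_eq_mul, smul_eq_mul,
        smul_eq_mul, smul_eq_mul, map_add, map_mul, map_mul]
  have he : linKer N = (semiAlg k d).map (Ψ : _ →ₐ[k] _) := by
    ext q
    obtain ⟨p, rfl⟩ := Ψ.surjective q
    rw [mem_linKer, hD, map_eq_zero_iff _ Ψ.injective]
    exact ⟨fun h => ⟨p, h, rfl⟩, fun ⟨r, hr, e⟩ => Ψ.injective e ▸ hr⟩
  rw [he]
  exact (semiAlg_fg d).map _

/-- **The additive group.** Invariance under `exp (t N)` for all `t` is to be killed. -/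
theorem invariant_exp_iff {N : Matrix (Fin n) (Fin n) k} (hN : IsNilpotent N)
    (p : MvPolynomial (Fin n) k) :
    (∀ t : k, act (IsNilpotent.exp (t • N)) p = p) ↔ linDer N p = 0 := by
  obtain ⟨L, hL⟩ := hN
  obtain ⟨h0, h1⟩ := expFamily_spec N hL
  have e : ∀ t : k, IsNilpotent.exp (t • N) = (expFamily N (L + 1)).map (Polynomial.eval t) :=
    fun t => by
      rw [expFamily_eval, IsNilpotent.exp_eq_sum (k := L + 1)
        (by rw [smul_pow, pow_succ N, hL, zero_mul, smul_zero])]
      refine Finset.sum_congr rfl fun r _ => ?_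
      rw [smul_pow, ← Rat.cast_smul_eq_qsmul k, smul_smul]
      push_cast
      rw [inv_mul_eq_div]
  exact ⟨fun h => linDer_eq_zero_of_nat h0 h1 fun m => (e _) ▸ h _,
    fun h t => (e t).symm ▸ act_eq_self_of_linDer h0 h1 h t⟩

/-- **The powers of a unipotent matrix.** -/
theorem invariant_iff_log {g : Matrix (Fin n) (Fin n) k} {L : ℕ} (hL : (g - 1) ^ L = 0)
    (p : MvPolynomial (Fin n) k) :
    act g p = p ↔ linDer (logMat (g - 1) L) p = 0 := by
  obtain ⟨h0, h1, -⟩ := powFamily_spec (g - 1) hL
  have e : ∀ m : ℕ, (powFamily (g - 1) L).map (Polynomial.eval (m : k)) = g ^ m := fun m => by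
    rw [powFamily_eval_nat _ hL, add_sub_cancel]
  refine ⟨fun h => linDer_eq_zero_of_nat h0 h1 fun m => ?_, fun h => ?_⟩
  · rw [e]
    induction m with
    | zero => rw [pow_zero, act_one]
    | succ m ih => rw [pow_succ, act_mul, h, ih]
  · have := act_eq_self_of_linDer h0 h1 h ((1 : ℕ) : k)
    rwa [e, pow_one] at this

end FA.Weitzenboeck
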